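import Fermat.Agent.S22
import Fermat.Agent.Lib.Newform.H863.GoodEigen
import Fermat.Agent.Lib.Newform.H863.Raise
import Fermat.Agent.Lib.Newform.H683.Eigen
import Fermat.Prelude.Def_FLTPrelim_ModularRep

/-!
# Row S59, piece T1/E1 (helper96): integral characters of the anemic Hecke algebra

An integral character `χ : heckeAlgebra N 2 S →+* ℤ` of the weight-2 Hecke algebra of level `N`
away from `S` is the eigencharacter of a normalised eigenform of level `N`
(`exists_eigenform_of_char`), and after `p`-stabilisation of a normalised eigenform of level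
`N * p`, `p ∤ N` (`exists_stabilized`).

`eigenformOfChar` is verbatim the body of `Fermat.Agent.S59.H239.EigenformOfCharStatement`
(architecture `coord/S59-arch-helper239.md`, piece T1/E1).

Ingredients (all on main): S22 (the Hecke algebra is a finite `ℤ`-module), the eigenvector lemma
of S49, `Lib/Newform/H863` (normalised eigenform from an eigenvector; degeneracy maps),
`Lib/Newform/H683` (Hecke relations of a normalised eigenform).
-/

set_option autoImplicit false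

open CuspForm CongruenceSubgroup ModularFormClass Polynomial

namespace Fermat.Agent.S59.H96

/-! ### Commutative algebra: the eigencharacter is `χ` -/

/-- If `B` is integral over `ℤ`, `χ : B → ℤ` and `χ' : B → ℂ` are characters with
`ker χ' ≤ ker χ`, then `χ'` vanishes on `ker χ`. -/
theorem eq_zero_of_ker_le {B : Type*} [CommRing B] [Algebra.IsIntegral ℤ B]
    (χ : B →+* ℤ) (χ' : B →+* ℂ) (hker : RingHom.ker χ' ≤ RingHom.ker χ)
    {c : B} (hc : χ c = 0) : χ' c = 0 := by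
  by_contra hx
  obtain ⟨P, hPmonic, hP⟩ := Algebra.IsIntegral.isIntegral (R := ℤ) c
  have hP0 : P ≠ 0 := hPmonic.ne_zero
  obtain ⟨Q, hPQ, hQ⟩ := Polynomial.exists_eq_pow_rootMultiplicity_mul_and_not_dvd P hP0 0
  rw [map_zero, sub_zero] at hPQ hQ
  have hQ0 : Q.eval 0 ≠ 0 := by
    intro h0
    apply hQ
    have : (X - C (0 : ℤ)) ∣ Q := Polynomial.dvd_iff_isRoot.mpr h0
    simpa using this
  -- apply `χ'`
  have e1 : ∀ R : ℤ[X], χ' (eval₂ (algebraMap ℤ B) c R) = eval₂ (Int.castRingHom ℂ) (χ' c) R := by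
    intro R
    rw [Polynomial.hom_eval₂]
    congr 1
    exact RingHom.ext_int _ _
  have e2 : ∀ R : ℤ[X], χ (eval₂ (algebraMap ℤ B) c R) = eval₂ (RingHom.id ℤ) (χ c) R := by
    intro R
    rw [Polynomial.hom_eval₂]
    congr 1
    exact RingHom.ext_int _ _
  have h1 := e1 P
  rw [hP, map_zero, hPQ, eval₂_mul, eval₂_pow, eval₂_X] at h1
  have h2 : eval₂ (Int.castRingHom ℂ) (χ' c) Q = 0 := by
    rcases mul_eq_zero.mp h1.symm with h | h
    · exact absurd h (pow_ne_zero _ hx)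
    · exact h
  have h3 : eval₂ (algebraMap ℤ B) c Q ∈ RingHom.ker χ := by
    apply hker
    rw [RingHom.mem_ker, e1 Q, h2]
  rw [RingHom.mem_ker, e2 Q, hc, Polynomial.eval₂_id] at h3
  exact hQ0 h3

/-- If `B` is integral over `ℤ`, a character `χ' : B → ℂ` with `ker χ' ≤ ker χ` for an integral
character `χ : B → ℤ` is equal to `χ`. -/
theorem char_eq_of_ker_le {B : Type*} [CommRing B] [Algebra.IsIntegral ℤ B]
    (χ : B →+* ℤ) (χ' : B →+* ℂ) (hker : RingHom.ker χ' ≤ RingHom.ker χ) (b : B) :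
    χ' b = ((χ b : ℤ) : ℂ) := by
  have h := eq_zero_of_ker_le χ χ' hker (c := b - ((χ b : ℤ) : B)) (by simp)
  rw [map_sub, map_intCast, sub_eq_zero] at h
  exact h

/-! ### The eigenvector and the eigenform of level `N` -/

/-- An integral character of the Hecke algebra away from `S` has a nonzero eigenvector. -/
theorem exists_eigenvector_of_char (N : ℕ) [NeZero N] (S : Set ℕ)
    (χ : heckeAlgebra N 2 S →+* ℤ) :
    ∃ h : CuspForm (Gamma0 N) 2, h ≠ 0 ∧
      ∀ t : heckeAlgebra N 2 S,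
        (t : Module.End ℂ (CuspForm (Gamma0 N) 2)) h = ((χ t : ℤ) : ℂ) • h := by
  have := Fermat.Agent.Lib.Newform.H863.finiteDimensional_cuspForm N
  have : Module.Finite ℤ (heckeAlgebra N 2 S) := Fermat.Agent.S22.result N 2 S
  have : Algebra.IsIntegral ℤ (heckeAlgebra N 2 S) := inferInstance
  have : (RingHom.ker χ).IsPrime := RingHom.ker_isPrime χ
  obtain ⟨g, χ', hg, hχ', hker⟩ := Fermat.Agent.S49.exists_eigenvector_ker_le
    (K := ℂ) (V := CuspForm (Gamma0 N) 2)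
    ((heckeAlgebra N 2 S).val.toRingHom) Subtype.val_injective (RingHom.ker χ)
  refine ⟨g, hg, fun t => ?_⟩
  rw [← char_eq_of_ker_le χ χ' hker t]
  exact hχ' t

/-- An integral character of the Hecke algebra away from `S` is the eigencharacter of a
normalised eigenform of the same level. -/
theorem exists_eigenform_of_char (N : ℕ) [NeZero N] (S : Set ℕ)
    (χ : heckeAlgebra N 2 S →+* ℤ) :
    ∃ f : CuspForm (Gamma0 N) 2, f.IsNormalizedEigenform ∧
      ∀ (ℓ : ℕ) (hℓ : ℓ.Prime) (hℓN : ¬ ℓ ∣ N) (hℓS : ℓ ∉ S),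
        qCoeff f ℓ = ((χ (heckeAlgebra.T hℓ hℓN hℓS) : ℤ) : ℂ) := by
  classical
  obtain ⟨h, hh, heig⟩ := exists_eigenvector_of_char N S χ
  let lam : ℕ → ℂ := fun ℓ =>
    if hc : ℓ.Prime ∧ ¬ ℓ ∣ N ∧ ℓ ∉ S then
      ((χ (heckeAlgebra.T hc.1 hc.2.1 hc.2.2) : ℤ) : ℂ) else 0
  have hlam : ∀ (ℓ : ℕ) (hℓ : ℓ.Prime) (hℓN : ¬ ℓ ∣ N) (hℓS : ℓ ∉ S),
      lam ℓ = ((χ (heckeAlgebra.T hℓ hℓN hℓS) : ℤ) : ℂ) := by
    intro ℓ hℓ hℓN hℓS
    simp only [lam, dif_pos (⟨hℓ, hℓN, hℓS⟩ : ℓ.Prime ∧ ¬ ℓ ∣ N ∧ ℓ ∉ S)]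
  obtain ⟨f, hf, hfl⟩ := Fermat.Agent.Lib.Newform.H863.exists_normalizedEigenform_of_eigenvector
    S lam h hh (fun ℓ hℓ hℓN hℓS => by
      have h1 := heig (heckeAlgebra.T hℓ hℓN hℓS)
      rw [heckeAlgebra.coe_T] at h1
      rw [h1, hlam ℓ hℓ hℓN hℓS])
  refine ⟨f, hf, fun ℓ hℓ hℓN hℓS => ?_⟩
  rw [hfl ℓ hℓ hℓN hℓS, hlam ℓ hℓ hℓN hℓS]

/-! ### Formal `p`-stabilisation -/

/-- `IsEigensystem e a` only depends on the values of `e` at the primes. -/
theorem isEigensystem_congr {R : Type*} [CommRing R] {e e' a : ℕ → R}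
    (h : FormalHecke.IsEigensystem e a) (he : ∀ ℓ : ℕ, ℓ.Prime → e ℓ = e' ℓ) :
    FormalHecke.IsEigensystem e' a :=
  ⟨h.1, fun ℓ hℓ n => by rw [← he ℓ hℓ]; exact h.2 ℓ hℓ n⟩

/-- Formal `p`-stabilisation: if `a` is a Hecke eigensystem and `β` is a root of
`X² - a_p X + e_p`, then `c_n = a_n - β a_{n/p}` is a Hecke eigensystem with `e_p` replaced
by `0`. -/
theorem formal_stabilize {R : Type*} [CommRing R] {e a : ℕ → R}
    (h : FormalHecke.IsEigensystem e a) {p : ℕ} (hp : p.Prime) (β : R)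
    (hβ : β ^ 2 - a p * β + e p = 0) :
    FormalHecke.IsEigensystem (fun ℓ => if ℓ = p then 0 else e ℓ)
      (fun n => a n - β * (if p ∣ n then a (n / p) else 0)) := by
  obtain ⟨h1, hrel⟩ := h
  have hp1 : ¬ p ∣ 1 := fun hd => hp.one_lt.ne' (Nat.dvd_one.mp hd)
  refine ⟨?_, ?_⟩
  · simp only [if_neg hp1, mul_zero, sub_zero]
    exact h1
  · intro ℓ hℓ n
    by_cases hℓp : ℓ = p
    · subst hℓp
      have r := hrel ℓ hℓ n
      simp only [if_true, zero_mul, add_zero, if_pos (dvd_mul_right ℓ n), if_pos (dvd_refl ℓ),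
        Nat.mul_div_cancel_left n hℓ.pos, Nat.div_self hℓ.pos, h1]
      by_cases hpn : ℓ ∣ n
      · rw [if_pos hpn] at r ⊢
        linear_combination r - a (n / ℓ) * hβ
      · rw [if_neg hpn] at r ⊢
        linear_combination r
    · have hpl : ¬ p ∣ ℓ := fun hd => hℓp ((Nat.prime_dvd_prime_iff_eq hp hℓ).mp hd).symm
      have hlp : ¬ ℓ ∣ p := fun hd => hℓp ((Nat.prime_dvd_prime_iff_eq hℓ hp).mp hd)
      simp only [if_neg hℓp, if_neg hpl, mul_zero, sub_zero]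
      by_cases hpn : p ∣ n
      · obtain ⟨m, rfl⟩ := hpn
        have hd1 : p ∣ ℓ * (p * m) := Dvd.dvd.mul_left (dvd_mul_right p m) ℓ
        have e1 : ℓ * (p * m) / p = ℓ * m := by
          rw [show ℓ * (p * m) = p * (ℓ * m) by ring, Nat.mul_div_cancel_left _ hp.pos]
        rw [if_pos hd1, e1, if_pos (dvd_mul_right p m), Nat.mul_div_cancel_left _ hp.pos]
        have rn := hrel ℓ hℓ (p * m)
        have rm := hrel ℓ hℓ m
        by_cases hℓm : ℓ ∣ m
        · obtain ⟨j, rfl⟩ := hℓm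
          have hd2 : ℓ ∣ p * (ℓ * j) := Dvd.dvd.mul_left (dvd_mul_right ℓ j) p
          have e2 : p * (ℓ * j) / ℓ = p * j := by
            rw [show p * (ℓ * j) = ℓ * (p * j) by ring, Nat.mul_div_cancel_left _ hℓ.pos]
          rw [if_pos hd2, e2] at rn ⊢
          rw [if_pos (dvd_mul_right ℓ j), Nat.mul_div_cancel_left _ hℓ.pos] at rm
          rw [if_pos (dvd_mul_right p j), Nat.mul_div_cancel_left _ hp.pos]
          linear_combination rn - β * rm
        · have hd2 : ¬ ℓ ∣ p * m := fun hd =>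
            (hℓ.dvd_mul.mp hd).elim hlp hℓm
          rw [if_neg hd2] at rn ⊢
          rw [if_neg hℓm] at rm
          linear_combination rn - β * rm
      · have hd1 : ¬ p ∣ ℓ * n := fun hd => (hp.dvd_mul.mp hd).elim hpl hpn
        simp only [if_neg hd1, if_neg hpn, mul_zero, sub_zero]
        have r := hrel ℓ hℓ n
        by_cases hℓn : ℓ ∣ n
        · have hd2 : ¬ p ∣ n / ℓ := fun hd => hpn (hd.trans (Nat.div_dvd_of_dvd hℓn))
          rw [if_pos hℓn] at r ⊢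
          rw [if_neg hd2, mul_zero, sub_zero]
          exact r
        · rw [if_neg hℓn] at r ⊢
          exact r

/-- The Hecke relations of a normalised eigenform, in the form of `FormalHecke.IsEigensystem`. -/
theorem isEigensystem_of_isNormalizedEigenform {N : ℕ} {f : CuspForm (Gamma0 N) 2}
    (hf : f.IsNormalizedEigenform) :
    FormalHecke.IsEigensystem (fun ℓ : ℕ => if ℓ ∣ N then (0 : ℂ) else (ℓ : ℂ))
      (fun n => qCoeff f n) := by
  refine ⟨hf.qCoeff_one, fun ℓ hℓ n => ?_⟩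
  by_cases hℓN : ℓ ∣ N
  · have h := Fermat.Agent.Lib.Newform.H683.coeff_mul_prime_of_dvd hf hℓ hℓN n
    simp only [if_pos hℓN, zero_mul, add_zero]
    rw [mul_comm ℓ n]
    exact h
  · have h := Fermat.Agent.Lib.Newform.H683.coeff_mul_prime_of_not_dvd hf hℓ hℓN n
    simp only [if_neg hℓN]
    rw [mul_comm ℓ n, ← h]
    split_ifs <;> simp

/-- **`p`-stabilisation.** A normalised eigenform `f` of level `N` and a prime `p ∤ N` give a
normalised eigenform of level `N * p` with the same coefficients at all primes `ℓ ≠ p`. -/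
theorem exists_stabilized {N : ℕ} {f : CuspForm (Gamma0 N) 2} (hf : f.IsNormalizedEigenform)
    {p : ℕ} (hp : p.Prime) (hpN : ¬ p ∣ N) :
    ∃ g : CuspForm (Gamma0 (N * p)) 2, g.IsNormalizedEigenform ∧
      ∀ ℓ : ℕ, ℓ.Prime → ℓ ≠ p → qCoeff g ℓ = qCoeff f ℓ := by
  classical
  have : NeZero p := ⟨hp.ne_zero⟩
  -- a root `β` of `X² - a_p X + p`
  obtain ⟨β, hβ⟩ : ∃ β : ℂ, β ^ 2 - qCoeff f p * β + (p : ℂ) = 0 := by
    obtain ⟨x, hx⟩ := exists_quadratic_eq_zero (a := (1 : ℂ)) (b := - qCoeff f p) (c := (p : ℂ))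
      one_ne_zero (IsAlgClosed.exists_eq_mul_self _)
    exact ⟨x, by linear_combination hx⟩
  let g : CuspForm (Gamma0 (N * p)) 2 :=
    Fermat.Agent.Lib.Newform.H863.levelIncl (Dvd.intro p rfl) f
      - β • Fermat.Agent.Lib.Newform.H863.degen p f
  have hgn : ∀ n, qCoeff g n = qCoeff f n - β * (if p ∣ n then qCoeff f (n / p) else 0) := by
    intro n
    simp only [g]
    rw [Fermat.Agent.S49.glue_qCoeff_sub, Fermat.Agent.S49.glue_qCoeff_smul,
      Fermat.Agent.Lib.Newform.H863.qCoeff_levelIncl, Fermat.Agent.Lib.Newform.H863.qCoeff_degen]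
  have hst := formal_stabilize (isEigensystem_of_isNormalizedEigenform hf) hp β
    (by simp only [if_neg hpN]; exact hβ)
  refine ⟨g, ?_, ?_⟩
  · apply Fermat.Agent.S49.isNormalizedEigenform_of_isEigensystem
    have hfun : (fun n => qCoeff g n) =
        (fun n => qCoeff f n - β * (if p ∣ n then qCoeff f (n / p) else 0)) := funext hgn
    rw [hfun]
    refine isEigensystem_congr hst (fun ℓ hℓ => ?_)
    by_cases hℓp : ℓ = p
    · subst hℓp
      simp only [if_true, if_pos (dvd_mul_left ℓ N)]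
    · simp only [if_neg hℓp]
      by_cases hℓN : ℓ ∣ N
      · rw [if_pos hℓN, if_pos (hℓN.mul_right p)]
      · have hd : ¬ ℓ ∣ N * p := fun hd =>
          (hℓ.dvd_mul.mp hd).elim hℓN (fun h => hℓp ((Nat.prime_dvd_prime_iff_eq hℓ hp).mp h))
        rw [if_neg hℓN, if_neg hd]
  · intro ℓ hℓ hℓp
    have hpl : ¬ p ∣ ℓ := fun hd => hℓp ((Nat.prime_dvd_prime_iff_eq hp hℓ).mp hd).symm
    rw [hgn, if_neg hpl, mul_zero, sub_zero]

/-! ### The statement E1 -/

/-- **T1/E1** (verbatim the body of `Fermat.Agent.S59.H239.EigenformOfCharStatement`): an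
integral character of the anemic Hecke algebra of level `N` away from `S ⊆ {p} ∪ primes(N)` with
values `a_ℓ(W)` shows that `W` is modular of level `N` (if `p ∣ N`) or `N * p`. -/
theorem eigenformOfChar :
    ∀ (W : WeierstrassCurve ℤ) (N : ℕ) [NeZero N] (S : Finset ℕ) (p : ℕ), p.Prime →
      (∀ ℓ ∈ S, ℓ.Prime) → (∀ ℓ ∈ S, ℓ = p ∨ ℓ ∣ N) →
      (χ : CuspForm.heckeAlgebra N 2 (↑S : Set ℕ) →+* ℤ) →
      (∀ (ℓ : ℕ) (hℓ : ℓ.Prime) (hℓN : ¬ ℓ ∣ N) (hℓS : ℓ ∉ (↑S : Set ℕ)),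
        χ (CuspForm.heckeAlgebra.T hℓ hℓN hℓS) = W.apOfModel ℓ) →
      W.IsModularModelOfLevel (if p ∣ N then N else N * p) := by
  intro W N _ S p hp _ hSN χ hχ
  obtain ⟨f, hf, hfl⟩ := exists_eigenform_of_char N (↑S : Set ℕ) χ
  have hnotS : ∀ ℓ : ℕ, ℓ ≠ p → ¬ ℓ ∣ N → ℓ ∉ (↑S : Set ℕ) := by
    intro ℓ hℓp hℓN hℓS
    rcases hSN ℓ (Finset.mem_coe.mp hℓS) with h | h
    · exact hℓp h
    · exact hℓN h
  by_cases hpN : p ∣ N
  · rw [if_pos hpN]
    refine ⟨f, hf, fun ℓ hℓ _ hℓN => ?_⟩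
    have hℓp : ℓ ≠ p := fun h => hℓN (h ▸ hpN)
    rw [hfl ℓ hℓ hℓN (hnotS ℓ hℓp hℓN), hχ ℓ hℓ hℓN (hnotS ℓ hℓp hℓN)]
  · rw [if_neg hpN]
    obtain ⟨g, hg, hgl⟩ := exists_stabilized hf hp hpN
    refine ⟨g, hg, fun ℓ hℓ _ hℓNp => ?_⟩
    have hℓp : ℓ ≠ p := fun h => hℓNp (h ▸ dvd_mul_left ℓ N)
    have hℓN : ¬ ℓ ∣ N := fun h => hℓNp (h.mul_right p)
    rw [hgl ℓ hℓ hℓp, hfl ℓ hℓ hℓN (hnotS ℓ hℓp hℓN), hχ ℓ hℓ hℓN (hnotS ℓ hℓp hℓN)]

end Fermat.Agent.S59.H96
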